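import Fermat.Agent.S26.SpecDeg

/-!
# Row S26, block LS: `Stmt.LSPullback` (helper219)

Pull-back of a good linear system along a finite morphism preserving the generic point:
`theorem lsPullback : Stmt.LSPullback K`.

Reusable lemmas (general `φ : X ⟶ Y` between integral schemes, `φ η_X = η_Y`):
* `ffMap_algebraMap`   : `φ^*` restricted to `O_{Y, φ x}` is the stalk map `φ_x`;
* `ffMap_ffStr`        : `φ^*` is a `K`-algebra map when `φ` is a `K`-morphism;
* `genAt_iff`          : elementwise form of `LS.GenAt`;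
* `genAt_pullback_iff` : `GenAt (φ^* w) x b ↔ GenAt w (φ x) b` for base point free `w`;
* `good_pullback`      : `φ` affine, `w` good `⇒ φ^* w` good;
* `finrank_map_eq`     : `[L : σ F] = [L : σ L] · [L : F]` for a field endomorphism `σ`.
-/

set_option autoImplicit false
universe u

open CategoryTheory CategoryTheory.Limits AlgebraicGeometry

namespace Fermat.Agent.S26.H219

noncomputable section

section StalkFF

variable {X Y : Scheme.{u}} [IsIntegral X] [IsIntegral Y]

/-- `ffMap` is compatible with the stalk maps: for `a ∈ O_{Y, φ x}`,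
`φ^* (a) = φ_x (a)` inside the function fields. -/
theorem ffMap_algebraMap (φ : X ⟶ Y) (h : φ (genericPoint X) = genericPoint Y) (x : X)
    (a : Y.presheaf.stalk (φ x)) :
    ffMap φ h (algebraMap (Y.presheaf.stalk (φ x)) Y.functionField a) =
      algebraMap (X.presheaf.stalk x) X.functionField (φ.stalkMap x a) := by
  have hx : genericPoint X ⤳ x := (genericPoint_spec X).specializes trivial
  have key := Scheme.Hom.stalkSpecializes_stalkMap_apply φ (genericPoint X) x hx a
  simp only [ffMap, RingHom.algebraMap_toAlgebra]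
  rw [← key]
  simp only [CommRingCat.hom_comp, RingHom.coe_comp, Function.comp_apply,
    TopCat.Presheaf.stalkCongr_hom]
  congr 1
  exact TopCat.Presheaf.stalkSpecializes_comp_apply _ _ _ _

theorem ffMap_injective (φ : X ⟶ Y) (h : φ (genericPoint X) = genericPoint Y) :
    Function.Injective (ffMap φ h) :=
  (ffMap φ h).injective

/-- `ffMap` of a `K`-morphism is a `K`-algebra map. -/
theorem ffMap_ffStr {K : Type u} [Field K] (strX : X ⟶ Spec (CommRingCat.of K))
    (strY : Y ⟶ Spec (CommRingCat.of K)) (φ : X ⟶ Y) (hφ : φ ≫ strY = strX)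
    (h : φ (genericPoint X) = genericPoint Y) (k : K) :
    ffMap φ h (ffStr strY k) = ffStr strX k := by
  subst hφ
  simp only [ffMap, ffStr, CommRingCat.hom_comp, RingHom.coe_comp, Function.comp_apply,
    TopCat.Presheaf.stalkCongr_hom]
  rw [TopCat.Presheaf.germ_stalkSpecializes_apply]
  rw [Scheme.Hom.germ_stalkMap_apply]
  rfl

end StalkFF

section GenAt

variable {X Y : Scheme.{u}} [IsIntegral X] [IsIntegral Y] {ι : Type}

/-- Elementwise form of `LS.GenAt`. -/
theorem genAt_iff (w : ι → X.functionField) (x : X) (b : ι) :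
    LS.GenAt w x b ↔
      w b ≠ 0 ∧ ∀ i, ∃ a : X.presheaf.stalk x,
        w i = algebraMap (X.presheaf.stalk x) X.functionField a * w b := by
  unfold LS.GenAt LS.span
  refine and_congr_right fun _ => ?_
  constructor
  · intro hs i
    have hi : w i ∈ Submodule.span (X.presheaf.stalk x) (Set.range w) :=
      Submodule.subset_span ⟨i, rfl⟩
    rw [hs, Submodule.mem_span_singleton] at hi
    obtain ⟨a, ha⟩ := hi
    exact ⟨a, by rw [← ha, Algebra.smul_def]⟩
  · intro hall
    apply le_antisymm
    · rw [Submodule.span_le]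
      rintro _ ⟨i, rfl⟩
      obtain ⟨a, ha⟩ := hall i
      rw [SetLike.mem_coe, Submodule.mem_span_singleton]
      exact ⟨a, by rw [ha, Algebra.smul_def]⟩
    · apply Submodule.span_mono
      rintro _ rfl
      exact ⟨b, rfl⟩

/-- The easy direction: generators pull back to generators. -/
theorem genAt_pullback_of_genAt (φ : X ⟶ Y) (h : φ (genericPoint X) = genericPoint Y)
    (w : ι → Y.functionField) (x : X) (b : ι) (hb : LS.GenAt w (φ x) b) :
    LS.GenAt (fun i => ffMap φ h (w i)) x b := by
  rw [genAt_iff] at hb ⊢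
  refine ⟨fun h0 => hb.1 (ffMap_injective φ h (by rw [h0, map_zero])), fun i => ?_⟩
  obtain ⟨a, ha⟩ := hb.2 i
  refine ⟨φ.stalkMap x a, ?_⟩
  simp only
  rw [ha, map_mul, ffMap_algebraMap]

/-- For a base point free system, `GenAt (φ^* w) x b ↔ GenAt w (φ x) b`
(the stalk map is a local homomorphism). -/
theorem genAt_pullback_iff (φ : X ⟶ Y) (h : φ (genericPoint X) = genericPoint Y)
    (w : ι → Y.functionField) (hw : LS.BPF w) (x : X) (b : ι) :
    LS.GenAt (fun i => ffMap φ h (w i)) x b ↔ LS.GenAt w (φ x) b := by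
  refine ⟨fun hb => ?_, genAt_pullback_of_genAt φ h w x b⟩
  obtain ⟨b₀, hb₀⟩ := hw (φ x)
  rw [genAt_iff] at hb hb₀ ⊢
  obtain ⟨hne, hgen⟩ := hb
  obtain ⟨hne₀, hgen₀⟩ := hb₀
  have hwb : w b ≠ 0 := fun h0 => hne (by simp only [h0, map_zero])
  obtain ⟨a, ha⟩ := hgen₀ b
  obtain ⟨c, hc⟩ := hgen b₀
  -- `φ^* w_{b₀} = c · φ_x(a) · φ^* w_{b₀}`
  have h1 : ffMap φ h (w b₀) =
      algebraMap (X.presheaf.stalk x) X.functionField (c * φ.stalkMap x a) *
        ffMap φ h (w b₀) := by
    conv_lhs => rw [hc, ha, map_mul, ffMap_algebraMap]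
    rw [map_mul, mul_assoc]
  have hne₀' : ffMap φ h (w b₀) ≠ 0 := fun h0 =>
    hne₀ (ffMap_injective φ h (by rw [h0, map_zero]))
  have h2 : algebraMap (X.presheaf.stalk x) X.functionField (c * φ.stalkMap x a) = 1 := by
    have := mul_right_cancel₀ hne₀' (h1.symm.trans (one_mul _).symm)
    exact this
  have h3 : c * φ.stalkMap x a = 1 :=
    IsFractionRing.injective (X.presheaf.stalk x) X.functionField (by rw [h2, map_one])
  have hu' : IsUnit (φ.stalkMap x a) := IsUnit.of_mul_eq_one _ (by rw [mul_comm]; exact h3)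
  have hu : IsUnit a := isUnit_of_map_unit (φ.stalkMap x).hom a hu'
  obtain ⟨u, rfl⟩ := hu
  -- `w_{b₀} = u⁻¹ w_b`
  have h4 : w b₀ = algebraMap (Y.presheaf.stalk (φ x)) Y.functionField (↑u⁻¹) * w b := by
    rw [ha, ← mul_assoc, ← map_mul, Units.inv_mul, map_one, one_mul]
  refine ⟨hwb, fun i => ?_⟩
  obtain ⟨d, hd⟩ := hgen₀ i
  exact ⟨d * ↑u⁻¹, by rw [hd, h4, map_mul, mul_assoc]⟩

/-- Pull-back of a good system along an affine morphism is good. -/
theorem good_pullback (φ : X ⟶ Y) [IsAffineHom φ] (h : φ (genericPoint X) = genericPoint Y)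
    (w : ι → Y.functionField) (hw : LS.Good w) :
    LS.Good (fun i => ffMap φ h (w i)) := by
  refine ⟨fun x => ?_, fun b => ?_⟩
  · obtain ⟨b, hb⟩ := hw.1 (φ x)
    exact ⟨b, genAt_pullback_of_genAt φ h w x b hb⟩
  · obtain ⟨U, hU, hUb⟩ := hw.2 b
    refine ⟨φ ⁻¹ᵁ U, hU.preimage φ, fun x => ?_⟩
    rw [genAt_pullback_iff φ h w hw.1 x b, ← hUb]
    rfl

end GenAt

section Field

variable {L : Type*} [Field L]

/-- Tower law for the image of a subfield under a field endomorphism:
`[L : σ F] = [L : σ L] · [L : F]` (as natural numbers, `0` for infinite degree). -/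
theorem finrank_map_eq (σ : L →+* L) (F : Subfield L) :
    Module.finrank (F.map σ) L = Module.finrank σ.fieldRange L * Module.finrank F L := by
  have hle : F.map σ ≤ σ.fieldRange := by
    rintro _ ⟨y, -, rfl⟩
    exact RingHom.mem_fieldRange.mpr ⟨y, rfl⟩
  rw [← Subfield.relfinrank_mul_finrank_top hle, mul_comm]
  congr 1
  rw [RingHom.fieldRange_eq_map, Subfield.relfinrank_map_map, Subfield.relfinrank_top_right]

end Field

section Final

variable {K : Type u} [Field K] {X : Scheme.{u}} [IsIntegral X]

theorem ratios_map (σ : X.functionField →+* X.functionField) {g : ℕ}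
    (w : Fin (g + 1) → X.functionField) :
    LS.ratios (fun i => σ (w i)) = fun i => σ (LS.ratios w i) := by
  funext i
  simp only [LS.ratios, map_div₀]

theorem coordField_pullback (str : X ⟶ Spec (CommRingCat.of K)) (φ : X ⟶ X)
    (hφ : φ ≫ str = str) (h : φ (genericPoint X) = genericPoint X) {g : ℕ}
    (w : Fin (g + 1) → X.functionField) :
    LS.coordField str (fun i => ffMap φ h (w i)) =
      (LS.coordField str w).map (ffMap φ h) := by
  have h1 : Set.range (⇑(ffMap φ h) ∘ ⇑(ffStr str)) = Set.range ⇑(ffStr str) := by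
    congr 1
    funext k
    exact ffMap_ffStr str str φ hφ h k
  have h2 : Set.range (LS.ratios fun i => ffMap φ h (w i)) =
      Set.range (⇑(ffMap φ h) ∘ LS.ratios w) := by
    rw [ratios_map]
    rfl
  unfold LS.coordField
  rw [RingHom.map_field_closure, Set.image_union, ← Set.range_comp, ← Set.range_comp, h1, h2]

theorem indep_pullback (str : X ⟶ Spec (CommRingCat.of K)) (φ : X ⟶ X)
    (hφ : φ ≫ str = str) (h : φ (genericPoint X) = genericPoint X) {g : ℕ}
    (w : Fin (g + 1) → X.functionField) (hw : LS.Indep str w) :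
    LS.Indep str (fun i => ffMap φ h (w i)) := by
  intro p hp
  apply hw p
  apply ffMap_injective φ h
  rw [map_zero, MvPolynomial.eval₂_comp_left (ffMap φ h) (ffStr str) (LS.ratios w) p]
  rw [ratios_map] at hp
  have hcomp : (ffMap φ h).comp (ffStr str) = ffStr str :=
    RingHom.ext fun k => ffMap_ffStr str str φ hφ h k
  rw [hcomp]
  exact hp

theorem deg_pullback (str : X ⟶ Spec (CommRingCat.of K)) (φ : X ⟶ X)
    (hφ : φ ≫ str = str) (h : φ (genericPoint X) = genericPoint X) {g : ℕ}
    (w : Fin (g + 1) → X.functionField) :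
    LS.deg str (fun i => ffMap φ h (w i)) = ffDeg φ h * LS.deg str w := by
  unfold LS.deg ffDeg
  rw [coordField_pullback str φ hφ h w]
  exact finrank_map_eq (ffMap φ h) (LS.coordField str w)

end Final

/-- **LS3 + LS5** (`Stmt.LSPullback`): pull-back of a good system along a finite morphism
preserving the generic point is good, its coordinates stay independent and the degree is
multiplied by the degree of the morphism. -/
theorem lsPullback (K : Type u) [Field K] [IsAlgClosed K] : Stmt.LSPullback K := by
  intro X _ str φ hφ _ h g w hgood hindep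
  exact ⟨good_pullback φ h w hgood, indep_pullback str φ hφ h w hindep,
    deg_pullback str φ hφ h w⟩

end

end Fermat.Agent.S26.H219
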